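/-
S18 / wave 4 (helper64): the field-by-field lemmas behind `Setup.inv` (the abstract setup of
helper74's skeleton is symmetric under `x ↦ x⁻¹`).  Mathlib only; nothing here depends on the
`Setup` structure itself, so the assembly is a one-line anonymous constructor.

* `gauss_inv`      : the Gauss condition for `x⁻¹` from the one for `x` (reversed polynomial);
* `adjoin_simple_inv_eq` : `K⟮x⁻¹⟯ = K⟮x⟯`;
* `transport_adjoin_inv` : any property of the intermediate field `K⟮x⟯` holds for `K⟮x⁻¹⟯`.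
-/
import Mathlib

set_option autoImplicit false

open IntermediateField

namespace Fermat.Agent.S18.H64

variable {K : Type*} [Field K] (A : ValuationSubring K) {F : Type*} [Field F] [Algebra K F]
  (O : ValuationSubring F) (x : F)

/-- `p(x⁻¹) = p.reverse(x) * (x⁻¹) ^ deg p`. -/
theorem aeval_inv_eq_reverse (hx : x ≠ 0) (p : Polynomial K) :
    Polynomial.aeval x⁻¹ p = Polynomial.aeval x p.reverse * x⁻¹ ^ p.natDegree := by
  let _ : Invertible (x⁻¹ : F) := ⟨x, mul_inv_cancel₀ hx, inv_mul_cancel₀ hx⟩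
  have h := Polynomial.eval₂_reverse_mul_pow (algebraMap K F) (x⁻¹ : F) p
  have h2 : (⅟(x⁻¹ : F)) = x := rfl
  rw [h2] at h
  rw [Polynomial.aeval_def, Polynomial.aeval_def, h]

/-- The Gauss condition (statement with a nonzero unit coefficient) passes from `x` to `x⁻¹`. -/
theorem gauss_inv
    (hg : ∀ p : Polynomial K, (∀ i, p.coeff i ∈ A) → (∃ i, p.coeff i ≠ 0 ∧ (p.coeff i)⁻¹ ∈ A) →
      Polynomial.aeval x p ∈ O ∧ (Polynomial.aeval x p)⁻¹ ∈ O) :
    ∀ p : Polynomial K, (∀ i, p.coeff i ∈ A) → (∃ i, p.coeff i ≠ 0 ∧ (p.coeff i)⁻¹ ∈ A) →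
      Polynomial.aeval x⁻¹ p ∈ O ∧ (Polynomial.aeval x⁻¹ p)⁻¹ ∈ O := by
  -- `x` is a unit of `O`
  have hxX := hg Polynomial.X (fun i => by
      rw [Polynomial.coeff_X]
      split_ifs
      · exact A.one_mem
      · exact A.zero_mem) ⟨1, by simp, by simp [A.one_mem]⟩
  rw [Polynomial.aeval_X] at hxX
  obtain ⟨hxO, hxiO⟩ := hxX
  intro p hp hu
  by_cases hx : x = 0
  · -- then `x⁻¹ = x`
    have : x⁻¹ = x := by rw [hx, inv_zero]
    rw [this]
    exact hg p hp hu
  have hrev := hg p.reverse (fun i => by rw [Polynomial.coeff_reverse]; exact hp _) (by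
    obtain ⟨i, hi0, hi⟩ := hu
    refine ⟨Polynomial.revAt p.natDegree i, ?_, ?_⟩
    · rw [Polynomial.coeff_reverse, Polynomial.revAt_invol]; exact hi0
    · rw [Polynomial.coeff_reverse, Polynomial.revAt_invol]; exact hi)
  rw [aeval_inv_eq_reverse x hx p]
  refine ⟨mul_mem hrev.1 (pow_mem hxiO _), ?_⟩
  rw [mul_inv, ← inv_pow, inv_inv]
  exact mul_mem hrev.2 (pow_mem hxO _)

/-- The Gauss condition in the original (weaker-hypothesis) form of skeleton v1/v2 passes from `x`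
to `x⁻¹` as well. -/
theorem gauss_inv_weak
    (hg : ∀ p : Polynomial K, (∀ i, p.coeff i ∈ A) → (∃ i, (p.coeff i)⁻¹ ∈ A) →
      Polynomial.aeval x p ∈ O ∧ (Polynomial.aeval x p)⁻¹ ∈ O) :
    ∀ p : Polynomial K, (∀ i, p.coeff i ∈ A) → (∃ i, (p.coeff i)⁻¹ ∈ A) →
      Polynomial.aeval x⁻¹ p ∈ O ∧ (Polynomial.aeval x⁻¹ p)⁻¹ ∈ O := by
  have hxX := hg Polynomial.X (fun i => by
      rw [Polynomial.coeff_X]
      split_ifs
      · exact A.one_mem
      · exact A.zero_mem) ⟨1, by simp [A.one_mem]⟩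
  rw [Polynomial.aeval_X] at hxX
  obtain ⟨hxO, hxiO⟩ := hxX
  intro p hp hu
  by_cases hx : x = 0
  · have : x⁻¹ = x := by rw [hx, inv_zero]
    rw [this]
    exact hg p hp hu
  have hrev := hg p.reverse (fun i => by rw [Polynomial.coeff_reverse]; exact hp _) (by
    obtain ⟨i, hi⟩ := hu
    refine ⟨Polynomial.revAt p.natDegree i, ?_⟩
    rw [Polynomial.coeff_reverse, Polynomial.revAt_invol]; exact hi)
  rw [aeval_inv_eq_reverse x hx p]
  refine ⟨mul_mem hrev.1 (pow_mem hxiO _), ?_⟩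
  rw [mul_inv, ← inv_pow, inv_inv]
  exact mul_mem hrev.2 (pow_mem hxO _)

variable (K) in
/-- `K(x⁻¹) = K(x)`. -/
theorem adjoin_simple_inv_eq : K⟮x⁻¹⟯ = K⟮x⟯ := by
  apply le_antisymm
  · rw [adjoin_simple_le_iff]
    exact inv_mem (mem_adjoin_simple_self K x)
  · rw [adjoin_simple_le_iff]
    have := inv_mem (mem_adjoin_simple_self K x⁻¹)
    rwa [inv_inv] at this

variable (K) in
/-- Transport of any statement about the intermediate field `K(x)` to `K(x⁻¹)`. -/
theorem transport_adjoin_inv (P : IntermediateField K F → Prop) (h : P K⟮x⟯) : P K⟮x⁻¹⟯ := by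
  rw [adjoin_simple_inv_eq K x]
  exact h

end Fermat.Agent.S18.H64
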