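/-
S18 / wave 4 (helper64): leaf C0 = `Setup.inv` of the Program J skeleton (helper74):
the abstract setup is symmetric under `x ↦ x⁻¹`.
-/
import Fermat.Agent.S18.H74.Setup
import Fermat.Agent.S18.H64.SetupInvFields

set_option autoImplicit false

open AlgebraicCurve IntermediateField

namespace Fermat.Agent.S18.H64

open Fermat.Agent.S18.H74

variable {K : Type*} [Field K] {A : ValuationSubring K} {F : Type*} [Field F] [Algebra K F]
  {O : ValuationSubring F} {x : F}

/-- **(S0)** the setup is symmetric under `x ↦ x⁻¹`  (= skeleton leaf `H74.Setup.inv`). -/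
theorem setup_inv (hS : Setup K A F O x) : Setup K A F O x⁻¹ where
  mem_iff := hS.mem_iff
  gauss := gauss_inv A O x hS.gauss
  scale := hS.scale
  finite := transport_adjoin_inv K x (fun E => FiniteDimensional E F) hS.finite
  basis := transport_adjoin_inv K x
    (fun E => ∃ θ : Fin (Module.finrank E F) → F,
      (∀ r : Fin (Module.finrank E F) → E,
        (∑ i, (r i : F) * θ i) ∈ O ↔ ∀ i, (r i : F) ∈ O) ∧
      (((Matrix.of fun i j : Fin (Module.finrank E F) =>
        Algebra.trace E F (θ i * θ j)).det : E) : F)⁻¹ ∈ O) hS.basis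
  branch := hS.branch_inv
  branch_inv := by simpa only [inv_inv] using hS.branch
  cartesian := hS.cartesian

end Fermat.Agent.S18.H64
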