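/-
S18 / wave 4 (helper64): the abstract Theorem T for every exponent `m` with `m⁻¹ ∈ A`, from the
prime case, by strong induction on `m`  (leaf `absT` of the skeleton of helper74, report #1073).

`u = w₁ ^ p` by the prime case; `w₁ ^ p - 1 = ∏_{ζ ^ p = 1} (w₁ - ζ)` lies in `m_O`, hence so does
one factor; `u' := w₁ / ζ` is a one-unit with `u = u' ^ p` and divisor divisible by `m / p`.

Only Mathlib and the frozen `Place` are used.
-/
import Mathlib
import Fermat.Prelude.Def_AlgebraicCurve_DivisorClassGroup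

set_option autoImplicit false

open AlgebraicCurve

namespace Fermat.Agent.S18.H64

variable {K : Type*} [Field K] (A : ValuationSubring K) {F : Type*} [Field F] [Algebra K F]
  (O : ValuationSubring F)

/-- A root of unity lies in every valuation subring. -/
theorem mem_of_pow_eq_one {a : K} {n : ℕ} (hn : n ≠ 0) (ha : a ^ n = 1) : a ∈ A := by
  rcases A.mem_or_inv_mem a with h | h
  · exact h
  · have h1 : a = (a⁻¹) ^ (n - 1) := by
      have ha0 : a ≠ 0 := by
        rintro rfl
        rw [zero_pow hn] at ha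
        exact zero_ne_one ha
      have h2 : a * a ^ (n - 1) = 1 := by
        rw [← pow_succ', Nat.sub_add_cancel (Nat.one_le_iff_ne_zero.mpr hn), ha]
      rw [inv_pow]
      exact (eq_inv_of_mul_eq_one_left h2)
    rw [h1]
    exact pow_mem h _

/-- In a valuation subring, a product of members lying in the maximal ideal has a factor in the
maximal ideal. -/
theorem exists_mem_nonunits_of_prod_mem (s : Multiset F) (hs : ∀ a ∈ s, a ∈ O)
    (hprod : s.prod ∈ O.nonunits) : ∃ a ∈ s, a ∈ O.nonunits := by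
  by_contra hcon
  have hone : ∀ a ∈ s, O.valuation a = 1 := by
    intro a ha
    have h1 : O.valuation a ≤ 1 := (O.valuation_le_one_iff a).mpr (hs a ha)
    have h2 : ¬ O.valuation a < 1 := fun h => hcon ⟨a, ha, O.mem_nonunits_iff.mpr h⟩
    exact le_antisymm h1 (not_lt.mp h2)
  have hval : O.valuation s.prod = 1 := by
    rw [map_multiset_prod]
    apply Multiset.prod_eq_one
    intro x hx
    obtain ⟨a, ha, rfl⟩ := Multiset.mem_map.mp hx
    exact hone a ha
  have := O.mem_nonunits_iff.mp hprod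
  rw [hval] at this
  exact lt_irrefl _ this

/-- If `w ^ p ≡ 1` modulo `m_O` then `w ≡ ζ` for a `p`-th root of unity `ζ ∈ K`. -/
theorem exists_root_of_unity_sub_mem [IsAlgClosed K]
    (hmem : ∀ a : K, algebraMap K F a ∈ O ↔ a ∈ A) (p : ℕ) (hp : p ≠ 0) (w : F) (hw : w ∈ O)
    (h : w ^ p - 1 ∈ O.nonunits) :
    ∃ ζ : K, ζ ^ p = 1 ∧ w - algebraMap K F ζ ∈ O.nonunits := by
  classical
  have hsplit : ((Polynomial.X : Polynomial K) ^ p - 1).Splits := IsAlgClosed.splits _
  have hmonic : ((Polynomial.X : Polynomial K) ^ p - 1).Monic :=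
    Polynomial.monic_X_pow_sub_C (1 : K) hp
  have hprod := hsplit.eq_prod_roots_of_monic hmonic
  have hev : w ^ p - 1 =
      (((Polynomial.X : Polynomial K) ^ p - 1).roots.map fun a => w - algebraMap K F a).prod := by
    have h1 : Polynomial.aeval w ((Polynomial.X : Polynomial K) ^ p - 1) = w ^ p - 1 := by
      simp
    rw [← h1]
    conv_lhs => rw [hprod]
    rw [map_multiset_prod, Multiset.map_map]
    congr 1
    apply Multiset.map_congr rfl
    intro a _
    simp
  have hroot : ∀ a ∈ ((Polynomial.X : Polynomial K) ^ p - 1).roots, a ^ p = 1 := by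
    intro a ha
    have := (Polynomial.mem_roots'.mp ha).2
    simpa [Polynomial.IsRoot, sub_eq_zero] using this
  rw [hev] at h
  obtain ⟨b, hb, hbn⟩ := exists_mem_nonunits_of_prod_mem O _ (by
    intro b hb
    obtain ⟨a, ha, rfl⟩ := Multiset.mem_map.mp hb
    exact sub_mem hw ((hmem a).mpr (mem_of_pow_eq_one A hp (hroot a ha)))) h
  obtain ⟨a, ha, rfl⟩ := Multiset.mem_map.mp hb
  exact ⟨a, hroot a ha, hbn⟩

/-- `ord` of a natural power. -/
theorem ord_npow (P : Place K F) (f : F) (n : ℕ) : P.ord (f ^ n) = (n : ℤ) * P.ord f := by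
  have := P.ord_zpow f (n : ℤ)
  simpa using this

/-- **Abstract Theorem T for every exponent, from the prime case.**  Statement = the leaf `absT`
of the skeleton with the prime case `absT_prime` as a hypothesis. -/
theorem absT_of_prime [IsAlgClosed K] [CharZero K]
    (hmem : ∀ a : K, algebraMap K F a ∈ O ↔ a ∈ A)
    (hprime : ∀ p : ℕ, p.Prime → ((p : K))⁻¹ ∈ A → ∀ u : F, u - 1 ∈ O.nonunits →
      (∀ P : Place K F, (p : ℤ) ∣ P.ord u) → ∃ w : F, u = w ^ p)
    (m : ℕ) (hm0 : m ≠ 0) (hm : ((m : K))⁻¹ ∈ A) :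
    ∀ u : F, u - 1 ∈ O.nonunits → (∀ P : Place K F, (m : ℤ) ∣ P.ord u) →
      ∃ (c : K) (w : F), c ≠ 0 ∧ u = algebraMap K F c * w ^ m := by
  induction m using Nat.strong_induction_on with
  | _ m ih =>
    intro u hu hord
    rcases eq_or_ne m 1 with rfl | hm1
    · exact ⟨1, u, one_ne_zero, by simp⟩
    -- a prime factor `p` of `m`
    obtain ⟨p, hp, m', rfl⟩ : ∃ p : ℕ, p.Prime ∧ ∃ m' : ℕ, m = p * m' :=
      ⟨m.minFac, Nat.minFac_prime hm1, Nat.minFac_dvd m⟩
    have hp0 : p ≠ 0 := hp.ne_zero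
    have hm'0 : m' ≠ 0 := fun h => hm0 (by rw [h, mul_zero])
    have hpK : (p : K) ≠ 0 := Nat.cast_ne_zero.mpr hp0
    have hm'K : (m' : K) ≠ 0 := Nat.cast_ne_zero.mpr hm'0
    have hnatA : ∀ n : ℕ, (n : K) ∈ A := fun n => natCast_mem A n
    have hpA : ((p : K))⁻¹ ∈ A := by
      have : ((p : K))⁻¹ = (m' : K) * (((p * m' : ℕ) : K))⁻¹ := by
        push_cast
        field_simp
      rw [this]
      exact mul_mem (hnatA m') hm
    have hm'A : ((m' : K))⁻¹ ∈ A := by
      have : ((m' : K))⁻¹ = (p : K) * (((p * m' : ℕ) : K))⁻¹ := by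
        push_cast
        field_simp
      rw [this]
      exact mul_mem (hnatA p) hm
    -- the prime case
    have hordp : ∀ P : Place K F, (p : ℤ) ∣ P.ord u := fun P =>
      dvd_trans (by push_cast; exact dvd_mul_right _ _) (hord P)
    obtain ⟨w₁, rfl⟩ := hprime p hp hpA u hu hordp
    -- `w₁ ∈ O`
    have hw₁O : w₁ ∈ O := by
      have h1 : w₁ ^ p ∈ O := by
        have := add_mem (O.nonunits_subset hu) O.one_mem
        simpa using this
      rcases O.mem_or_inv_mem w₁ with h | h
      · exact h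
      · -- `w₁⁻¹ ∈ O` and `w₁ ^ p ∈ O` give `w₁ = w₁ ^ p * (w₁⁻¹) ^ (p - 1) ∈ O`
        have hw0 : w₁ ≠ 0 := by
          rintro rfl
          rw [zero_pow hp0, zero_sub] at hu
          have h2 : (-1 : F) ∈ O.nonunits := hu
          have h3 := O.mem_nonunits_iff.mp h2
          rw [Valuation.map_neg, Valuation.map_one] at h3
          exact lt_irrefl _ h3
        have : w₁ = w₁ ^ p * (w₁⁻¹) ^ (p - 1) := by
          rw [inv_pow, ← div_eq_mul_inv, eq_div_iff (pow_ne_zero _ hw0), ← pow_succ',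
            Nat.sub_add_cancel (Nat.one_le_iff_ne_zero.mpr hp0)]
        rw [this]
        exact mul_mem h1 (pow_mem h _)
    obtain ⟨ζ, hζ, hζn⟩ := exists_root_of_unity_sub_mem A O hmem p hp0 w₁ hw₁O hu
    have hζ0 : ζ ≠ 0 := by
      rintro rfl
      rw [zero_pow hp0] at hζ
      exact zero_ne_one hζ
    have hζF : algebraMap K F ζ ≠ 0 := by
      simpa using hζ0
    have hζinvA : ζ⁻¹ ∈ A := mem_of_pow_eq_one A hp0 (by rw [inv_pow, hζ, inv_one])
    have hζinvO : (algebraMap K F ζ)⁻¹ ∈ O := by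
      rw [← map_inv₀]
      exact (hmem _).mpr hζinvA
    -- the new one-unit
    set u' : F := w₁ * (algebraMap K F ζ)⁻¹ with hu'
    have hu'1 : u' - 1 ∈ O.nonunits := by
      have h1 : u' - 1 = (w₁ - algebraMap K F ζ) * (algebraMap K F ζ)⁻¹ := by
        rw [hu', sub_mul, mul_inv_cancel₀ hζF]
      rw [h1, O.mem_nonunits_iff, map_mul]
      have h2 := O.mem_nonunits_iff.mp hζn
      have h3 : O.valuation (algebraMap K F ζ)⁻¹ ≤ 1 := (O.valuation_le_one_iff _).mpr hζinvO
      calc O.valuation (w₁ - algebraMap K F ζ) * O.valuation (algebraMap K F ζ)⁻¹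
          ≤ O.valuation (w₁ - algebraMap K F ζ) := mul_le_of_le_one_right' h3
        _ < 1 := h2
    have hpow : w₁ ^ p = u' ^ p := by
      rw [hu', mul_pow, inv_pow, ← map_pow, hζ, map_one, inv_one, mul_one]
    have hord' : ∀ P : Place K F, (m' : ℤ) ∣ P.ord u' := by
      intro P
      have h1 := hord P
      rw [hpow, ord_npow] at h1
      have h2 : ((p * m' : ℕ) : ℤ) = (p : ℤ) * (m' : ℤ) := by push_cast; ring
      rw [h2] at h1
      exact (mul_dvd_mul_iff_left (Int.natCast_ne_zero.mpr hp0)).mp h1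
    have hlt : m' < p * m' := by
      have := hp.one_lt
      nlinarith [Nat.pos_of_ne_zero hm'0]
    obtain ⟨c, w, hc, hcw⟩ := ih m' hlt hm'0 hm'A u' hu'1 hord'
    refine ⟨c ^ p, w, pow_ne_zero _ hc, ?_⟩
    rw [hpow, hcw, mul_pow, map_pow, ← pow_mul, mul_comm m' p]

end Fermat.Agent.S18.H64
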