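/-
S18 / wave 4 (helper64): the residue field of a valuation subring `A` of an algebraically closed
field is algebraically closed, and has characteristic `ℓ` when `A` lies over `ℓ`.
(Leaves L0 `kA_charP`, `kA_isAlgClosed` of the bridge sub-skeleton of helper28.)
Mathlib + the frozen `ValuationSubring.LiesOverPrime` only.
-/
import Mathlib
import Fermat.Prelude.Def_FLTPrelim_Ramification

set_option autoImplicit false

namespace Fermat.Agent.S18.H64

open Polynomial

/-- The residue field of a valuation subring lying over the prime `ℓ` has characteristic `ℓ`. -/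
theorem charP_residueField_of_liesOverPrime {L : Type*} [Field L] (A : ValuationSubring L)
    {ℓ : ℕ} [hℓ : Fact ℓ.Prime] (hA : A.LiesOverPrime ℓ) :
    CharP (IsLocalRing.ResidueField A) ℓ := by
  have hmem : ((ℓ : ℕ) : A) ∈ IsLocalRing.maximalIdeal A := by
    have h1 : (((ℓ : ℕ) : A) : L) ∈ A.nonunits := by
      have : (((ℓ : ℕ) : A) : L) = (ℓ : L) := by simp
      rw [this]
      exact hA
    exact ValuationSubring.coe_mem_nonunits_iff.mp h1
  have h0 : ((ℓ : ℕ) : IsLocalRing.ResidueField A) = 0 := by
    have h2 : IsLocalRing.residue A ((ℓ : ℕ) : A) = 0 :=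
      (IsLocalRing.residue_eq_zero_iff _).mpr hmem
    rw [map_natCast] at h2
    exact h2
  have hdvd : ringChar (IsLocalRing.ResidueField A) ∣ ℓ := (ringChar.spec _ ℓ).mp h0
  rcases (Nat.dvd_prime hℓ.out).mp hdvd with h1 | h1
  · exact absurd h1 (CharP.ringChar_ne_one)
  · rw [← h1]
    exact ringChar.charP _

/-- The residue field of a valuation subring of an algebraically closed field is algebraically
closed. -/
theorem isAlgClosed_residueField {L : Type*} [Field L] [IsAlgClosed L] (A : ValuationSubring L) :
    IsAlgClosed (IsLocalRing.ResidueField A) := by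
  apply IsAlgClosed.of_exists_root
  intro p hp hirr
  -- lift `p` to a monic polynomial over `A`
  have hsurj : Function.Surjective (IsLocalRing.residue A) := IsLocalRing.residue_surjective
  have hlift : p ∈ Polynomial.lifts (IsLocalRing.residue A) := by
    obtain ⟨q, hq⟩ := Polynomial.map_surjective (IsLocalRing.residue A) hsurj p
    exact (Polynomial.mem_lifts p).mpr ⟨q, hq⟩
  obtain ⟨P, hPmap, hPdeg, hPmonic⟩ := Polynomial.lifts_and_degree_eq_and_monic hlift hp
  -- a root of `P` in `L`
  have hdeg : (P.map (algebraMap A L)).degree ≠ 0 := by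
    rw [Polynomial.degree_map_eq_of_injective (FaithfulSMul.algebraMap_injective A L), hPdeg]
    exact (Polynomial.degree_pos_of_irreducible hirr).ne'
  obtain ⟨α, hα⟩ := IsAlgClosed.exists_root (P.map (algebraMap A L)) hdeg
  -- `α` is integral over `A`, hence lies in `A`
  have hint : IsIntegral A α := ⟨P, hPmonic, by
    rw [← Polynomial.eval_map]; exact hα⟩
  obtain ⟨a, ha⟩ := IsIntegrallyClosed.isIntegral_iff.mp hint
  refine ⟨IsLocalRing.residue A a, ?_⟩
  have hPa : P.eval a = 0 := by
    have h1 : (P.map (algebraMap A L)).eval (algebraMap A L a) = 0 := by rw [ha]; exact hα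
    rw [Polynomial.eval_map_algebraMap, Polynomial.aeval_algebraMap_apply] at h1
    have h2 : Polynomial.aeval a P = P.eval a := Polynomial.coe_aeval_eq_eval a ▸ rfl
    rw [h2] at h1
    exact (FaithfulSMul.algebraMap_injective A L) (by rw [h1, map_zero])
  rw [← hPmap, Polynomial.eval_map, Polynomial.eval₂_at_apply, hPa, map_zero]

end Fermat.Agent.S18.H64
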